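import Mathlib

set_option autoImplicit false
set_option linter.style.haveILetI false

namespace Fermat.Agent.S49.H889

open Module

universe u v w

theorem exists_common_eigenvector_aux {K : Type u} [Field K] [IsAlgClosed K] {ι : Type w} :
    ∀ (n : ℕ) (V : Type v) [AddCommGroup V] [Module K V] [FiniteDimensional K V] [Nontrivial V],
      finrank K V = n → ∀ (f : ι → Module.End K V), (∀ i j, Commute (f i) (f j)) →
      ∃ w : V, w ≠ 0 ∧ ∀ i, ∃ c : K, f i w = c • w := by
  intro n
  induction n using Nat.strong_induction_on with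
  | _ n ih =>
    intro V _ _ _ _ hn f hcomm
    by_cases hscal : ∀ i, ∃ c : K, ∀ w, f i w = c • w
    · obtain ⟨w, hw⟩ := exists_ne (0 : V)
      exact ⟨w, hw, fun i => (hscal i).imp fun c hc => hc w⟩
    · push Not at hscal
      obtain ⟨i, hi⟩ := hscal
      obtain ⟨μ, hμ⟩ := Module.End.exists_eigenvalue (f i)
      set E := Module.End.eigenspace (f i) μ with hE
      have hEbot : E ≠ ⊥ := hμ
      have hEtop : E ≠ ⊤ := by
        intro htop
        obtain ⟨w, hw⟩ := hi μ
        apply hw
        have : w ∈ E := by rw [htop]; trivial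
        exact Module.End.mem_eigenspace_iff.mp this
      have hlt : finrank K E < n := by
        rw [← hn]
        exact Submodule.finrank_lt hEtop
      have hmaps : ∀ j, ∀ x ∈ E, f j x ∈ E := by
        intro j x hx
        rw [hE, Module.End.mem_eigenspace_iff] at hx ⊢
        have := hcomm i j
        calc f i (f j x) = (f i * f j) x := rfl
          _ = (f j * f i) x := by rw [this.eq]
          _ = f j (f i x) := rfl
          _ = μ • f j x := by rw [hx, map_smul]
      have : Nontrivial E := Submodule.nontrivial_iff_ne_bot.mpr hEbot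
      obtain ⟨w, hw, hww⟩ := ih (finrank K E) hlt E rfl (fun j => (f j).restrict (hmaps j))
        (by
          intro j k
          ext x
          simp only [Module.End.mul_apply, LinearMap.coe_restrict_apply]
          calc f j (f k x) = (f j * f k) x := rfl
            _ = (f k * f j) x := by rw [(hcomm j k).eq]
            _ = f k (f j x) := rfl)
      refine ⟨w, fun h => hw (Subtype.ext h), fun j => ?_⟩
      obtain ⟨c, hc⟩ := hww j
      refine ⟨c, ?_⟩
      have := congrArg Subtype.val hc
      simpa using this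

theorem exists_common_eigenvector {K : Type u} [Field K] [IsAlgClosed K] {ι : Type w}
    {V : Type v} [AddCommGroup V] [Module K V] [FiniteDimensional K V] [Nontrivial V]
    (f : ι → Module.End K V) (hcomm : ∀ i j, Commute (f i) (f j)) :
    ∃ w : V, w ≠ 0 ∧ ∀ i, ∃ c : K, f i w = c • w :=
  exists_common_eigenvector_aux (finrank K V) V rfl f hcomm


/-- Abstract Deligne–Serre lifting lemma. -/
theorem deligne_serre_abstract {V : Type v} [AddCommGroup V] [Module ℂ V] {T : Type w}
    [CommRing T] [Module.Finite ℤ T] (ρ : T →+* Module.End ℂ V) (hρ : Function.Injective ρ)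
    (𝔫 : Ideal T) (h𝔫 : 𝔫 ≠ ⊤) :
    ∃ (θ : T →+* integralClosure ℤ ℂ) (w : V) (𝔪' : Ideal (integralClosure ℤ ℂ)),
      w ≠ 0 ∧ (∀ t, ρ t w = ((θ t : integralClosure ℤ ℂ) : ℂ) • w) ∧ 𝔪'.IsMaximal ∧
      𝔫 ≤ 𝔪'.comap θ := by
  classical
  haveI : IsNoetherianRing T := IsNoetherianRing.of_finite ℤ T
  obtain ⟨𝔪, h𝔪max, h𝔫𝔪⟩ := Ideal.exists_le_maximal 𝔫 h𝔫
  haveI := h𝔪max.isPrime
  obtain ⟨P, hPmin, hP𝔪⟩ := Ideal.exists_minimalPrimes_le (bot_le : (⊥ : Ideal T) ≤ 𝔪)
  have hann : Module.annihilator T T = ⊥ := by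
    rw [eq_bot_iff]
    intro r hr
    have := Module.mem_annihilator.mp hr 1
    simpa using this
  have hPass : P ∈ associatedPrimes T T := by
    apply Module.associatedPrimes.minimalPrimes_annihilator_subset_associatedPrimes
    rw [hann]; exact hPmin
  obtain ⟨hPprime, x, hx⟩ := (isAssociatedPrime_iff).mp hPass
  have hxP : ∀ t, t ∈ P ↔ t * x = 0 := by
    intro t
    rw [hx, Submodule.mem_colon_singleton]
    simp
  have hx0 : x ≠ 0 := by
    rintro rfl
    apply hPprime.ne_top
    rw [Ideal.eq_top_iff_one, hxP]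
    simp
  have hρx : ρ x ≠ 0 := by
    intro h0
    apply hx0
    apply hρ
    rw [h0, map_zero]
  obtain ⟨u, hu⟩ : ∃ u, ρ x u ≠ 0 := by
    by_contra hcon
    push Not at hcon
    apply hρx
    ext u
    simpa using hcon u
  set w₀ := ρ x u with hw₀
  -- the T-stable subspace generated by w₀
  set W : Submodule ℂ V := Submodule.span ℂ (Set.range fun t : T => ρ t w₀) with hW
  have hw₀W : w₀ ∈ W := Submodule.subset_span ⟨1, by simp⟩
  have hstable : ∀ t : T, ∀ v ∈ W, ρ t v ∈ W := by
    intro t
    have : W ≤ W.comap (ρ t) := by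
      rw [hW, Submodule.span_le]
      rintro _ ⟨s, rfl⟩
      change ρ t (ρ s w₀) ∈ Submodule.span ℂ (Set.range fun t : T => ρ t w₀)
      exact Submodule.subset_span ⟨t * s, by simp [map_mul]⟩
    exact fun v hv => this hv
  have hPkill : ∀ t ∈ P, ∀ v ∈ W, ρ t v = 0 := by
    intro t ht
    have : W ≤ LinearMap.ker (ρ t) := by
      rw [hW, Submodule.span_le]
      rintro _ ⟨s, rfl⟩
      show ρ t (ρ s (ρ x u)) = 0
      have h1 : ρ t (ρ s (ρ x u)) = ρ (s * (t * x)) u := by
        rw [show s * (t * x) = t * s * x by ring]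
        simp [map_mul]
      rw [h1, (hxP t).mp ht]
      simp
    exact fun v hv => this hv
  -- finite-dimensionality
  haveI hfd : FiniteDimensional ℂ W := by
    obtain ⟨s, hs⟩ := (Module.Finite.fg_top : (⊤ : Submodule ℤ T).FG)
    have hfin : ((fun t : T => ρ t w₀) '' (s : Set T)).Finite := s.finite_toSet.image _
    haveI := FiniteDimensional.span_of_finite ℂ hfin
    apply Submodule.finiteDimensional_of_le (S₂ := Submodule.span ℂ ((fun t : T => ρ t w₀) '' (s : Set T)))
    rw [hW, Submodule.span_le]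
    rintro _ ⟨t, rfl⟩
    have ht : t ∈ Submodule.span ℤ (s : Set T) := by rw [hs]; trivial
    show ρ t w₀ ∈ Submodule.span ℂ ((fun t : T => ρ t w₀) '' (s : Set T))
    induction ht using Submodule.span_induction with
    | mem y hy => exact Submodule.subset_span ⟨y, hy, rfl⟩
    | zero => simp
    | add y z _ _ hy hz =>
      rw [map_add, LinearMap.add_apply]
      exact add_mem hy hz
    | smul n y _ hy =>
      rw [map_zsmul, LinearMap.smul_apply]
      exact zsmul_mem hy n
  haveI : Nontrivial W := ⟨⟨⟨w₀, hw₀W⟩, 0, fun h => hu (congrArg Subtype.val h)⟩⟩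
  obtain ⟨w, hw, hww⟩ := exists_common_eigenvector (K := ℂ) (V := W)
    (fun t : T => (ρ t).restrict (hstable t))
    (by
      intro s t
      ext v
      simp only [Module.End.mul_apply, LinearMap.coe_restrict_apply]
      calc ρ s (ρ t v) = ρ (s * t) v := by simp [map_mul]
        _ = ρ (t * s) v := by rw [mul_comm]
        _ = ρ t (ρ s v) := by simp [map_mul])
  have hwV : (w : V) ≠ 0 := fun h => hw (Subtype.ext h)
  have hev : ∀ t : T, ∃ c : ℂ, ρ t (w : V) = c • (w : V) := by
    intro t
    obtain ⟨c, hc⟩ := hww t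
    exact ⟨c, by simpa using congrArg Subtype.val hc⟩
  choose θ₀ hθ₀ using hev
  have uniq : ∀ c c' : ℂ, c • (w : V) = c' • (w : V) → c = c' :=
    fun c c' h => smul_left_injective ℂ hwV h
  let θ₁ : T →+* ℂ :=
    { toFun := θ₀
      map_one' := uniq _ _ (by rw [← hθ₀]; simp)
      map_mul' := fun s t => uniq _ _ (by
        rw [← hθ₀, map_mul, Module.End.mul_apply, hθ₀ t, map_smul, hθ₀ s, smul_smul, mul_comm])
      map_zero' := uniq _ _ (by rw [← hθ₀]; simp)
      map_add' := fun s t => uniq _ _ (by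
        rw [← hθ₀, map_add, LinearMap.add_apply, hθ₀ s, hθ₀ t, add_smul]) }
  have hθ₁ : ∀ t, ρ t (w : V) = θ₁ t • (w : V) := hθ₀
  have hPker : P ≤ RingHom.ker θ₁ := by
    intro t ht
    rw [RingHom.mem_ker]
    apply uniq
    rw [← hθ₁, hPkill t ht w w.2, zero_smul]
  have hkerP : RingHom.ker θ₁ ≤ P := by
    intro t ht
    by_contra htP
    have hlt := Ideal.comap_lt_comap_of_integral_mem_sdiff (R := ℤ) hPker
      (x := t) ⟨ht, htP⟩ (Algebra.IsIntegral.isIntegral t)
    have hbot : Ideal.comap (algebraMap ℤ T) (RingHom.ker θ₁) = ⊥ := by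
      rw [eq_bot_iff]
      intro n hn
      rw [Ideal.mem_comap, RingHom.mem_ker] at hn
      have : ((n : ℤ) : ℂ) = 0 := by simpa using hn
      simpa using this
    rw [hbot] at hlt
    exact not_lt_bot hlt
  have hint : ∀ t, θ₁ t ∈ integralClosure ℤ ℂ := fun t =>
    map_isIntegral_int θ₁ (Algebra.IsIntegral.isIntegral t)
  let θ : T →+* integralClosure ℤ ℂ := θ₁.codRestrict (integralClosure ℤ ℂ) hint
  have hker : RingHom.ker θ ≤ 𝔪 := by
    intro t ht
    apply hP𝔪
    apply hkerP
    rw [RingHom.mem_ker] at ht ⊢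
    have := congrArg (Subtype.val) ht
    simpa [θ] using this
  letI : Algebra T (integralClosure ℤ ℂ) := θ.toAlgebra
  haveI : IsScalarTower ℤ T (integralClosure ℤ ℂ) :=
    IsScalarTower.of_algebraMap_eq (fun n => by simp)
  haveI : Algebra.IsIntegral T (integralClosure ℤ ℂ) := Algebra.IsIntegral.tower_top ℤ
  obtain ⟨𝔪', hmax, hcomap⟩ :=
    Ideal.exists_ideal_over_maximal_of_isIntegral (S := integralClosure ℤ ℂ) 𝔪 hker
  refine ⟨θ, w, 𝔪', hwV, fun t => hθ₁ t, hmax, ?_⟩
  intro t ht
  have : t ∈ Ideal.comap (algebraMap T (integralClosure ℤ ℂ)) 𝔪' := by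
    rw [hcomap]; exact h𝔫𝔪 ht
  exact this

end Fermat.Agent.S49.H889
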