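import Fermat.Statements.S49
import Fermat.Prelude.Def_CuspForm_HeckeAlgebra
import Fermat.Prelude.Def_CuspForm_IntegralStructure
import Fermat.Prelude.Thm_CuspForm_mem_intLattice_of_mem_heckeAlgebra
import Fermat.Prelude.Thm_ModularFormClass_qCoeff_heckeT
import Fermat.Prelude.Thm_CongruenceSubgroup_one_mem_strictPeriods_Gamma0
import Fermat.Prelude.Sol.S_CuspForm_intLattice_fg

set_option autoImplicit false
set_option linter.style.haveILetI false

open CuspForm EisensteinWeightOne CongruenceSubgroup ModularFormClass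

namespace Fermat.Agent.S49.H889

open P2MW.S_CuspForm_intLattice_fg.W3WsD (hΓ qCoeff_add qCoeff_zsmul mem_intLattice_iff)

variable {N : ℕ}

theorem m3_qCoeff_smul (c : ℂ) (f : CuspForm (Gamma0 N) 2) (n : ℕ) :
    qCoeff ⇑(c • f) n = c * qCoeff ⇑f n := by
  have h1 : ⇑(c • f) = c • ⇑f := rfl
  simp only [qCoeff, h1]
  rw [ModularForm.qExpansion_smul one_pos (hΓ N) c f]
  simp

theorem m3_qCoeff_sub (f g : CuspForm (Gamma0 N) 2) (n : ℕ) :
    qCoeff ⇑(f - g) n = qCoeff ⇑f n - qCoeff ⇑g n := by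
  have h1 : ⇑(f - g) = ⇑f - ⇑g := rfl
  simp only [qCoeff, h1]
  rw [ModularForm.qExpansion_sub one_pos (hΓ N) f g, map_sub]

theorem m3_qCoeff_heckeTLin {p : ℕ} (hp : p.Prime) (hpN : ¬ p ∣ N)
    (f : CuspForm (Gamma0 N) 2) (n : ℕ) :
    qCoeff ⇑(heckeTLin 2 hp hpN f) n =
      qCoeff ⇑f (n * p) + if p ∣ n then (p : ℂ) * qCoeff ⇑f (n / p) else 0 := by
  rw [CuspForm.coe_heckeTLin_apply, ModularFormClass.qCoeff_heckeT f (hΓ N) hp.ne_zero n,
    ModularForm.coeffHeckeT_apply]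
  norm_num

theorem m3_chi_mod_three (ℓ : ℕ) : ∃ v : ℤ, (ℓ : ℤ) = chiNegThree ℓ + 3 * v := by
  unfold chiNegThree
  split_ifs with h1 h2
  · exact ⟨(ℓ / 3 : ℕ), by omega⟩
  · exact ⟨(ℓ / 3 : ℕ) + 1, by omega⟩
  · exact ⟨(ℓ / 3 : ℕ), by omega⟩

theorem m3_bridge_coeff (a : ℕ → ℤ) (n : ℕ) :
    (3 : ℤ) ∣ (bridgeProduct a).coeff n - a n := by
  have he : e1Chi3In ℤ = 1 + PowerSeries.C (3 : ℤ) *
      PowerSeries.mk (fun n => if n = 0 then 0 else 2 * sigmaChi n) := by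
    ext k
    simp only [e1Chi3In, e1Chi3, PowerSeries.coeff_map, PowerSeries.coeff_mk, map_add,
      PowerSeries.coeff_one, PowerSeries.coeff_C_mul]
    split_ifs <;> simp <;> ring
  have : (bridgeProduct a).coeff n = a n + 3 * (PowerSeries.coeff n (PowerSeries.mk a *
      PowerSeries.mk (fun n => if n = 0 then 0 else 2 * sigmaChi n))) := by
    rw [bridgeProduct, he, mul_add, mul_one, mul_left_comm, map_add, PowerSeries.coeff_C_mul,
      PowerSeries.coeff_mk]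
  rw [this, add_sub_cancel_left]
  exact dvd_mul_right _ _

/-- The ideal of Hecke operators sending `f₀` into `3 • L`. -/
def modThreeIdeal [NeZero N] (f₀ : CuspForm (Gamma0 N) 2) :
    Ideal (heckeAlgebra N 2 (∅ : Set ℕ)) where
  carrier := {t | ∃ g ∈ intLattice N 2,
    (t : Module.End ℂ (CuspForm (Gamma0 N) 2)) f₀ = (3 : ℤ) • g}
  add_mem' := by
    rintro s t ⟨g, hg, hs⟩ ⟨g', hg', ht⟩
    refine ⟨g + g', add_mem hg hg', ?_⟩
    change (s.1 + t.1) f₀ = _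
    rw [LinearMap.add_apply, hs, ht, smul_add]
  zero_mem' := ⟨0, zero_mem _, by simp⟩
  smul_mem' := by
    rintro c t ⟨g, hg, ht⟩
    refine ⟨c.1 g, mem_intLattice_of_mem_heckeAlgebra one_le_two c.2 hg, ?_⟩
    change (c.1 * t.1) f₀ = _
    rw [Module.End.mul_apply, ht, map_zsmul]

theorem mem_modThreeIdeal [NeZero N] (f₀ : CuspForm (Gamma0 N) 2)
    (t : heckeAlgebra N 2 (∅ : Set ℕ)) :
    t ∈ modThreeIdeal f₀ ↔ ∃ g ∈ intLattice N 2,
      (t : Module.End ℂ (CuspForm (Gamma0 N) 2)) f₀ = (3 : ℤ) • g := Iff.rfl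

/-- (B) -/
theorem exists_maximal_ideal_mod_three [NeZero N] {a : ℕ → ℤ}
    (heig : FormalHecke.IsEigensystem
      (fun ℓ => if ℓ ∣ N then 0 else ((chiNegThree ℓ : ℤ) : ℤ)) a)
    (hreal : CuspForm.IsLatticeRealized N a) :
    ∃ 𝔫 : Ideal (heckeAlgebra N 2 (∅ : Set ℕ)), 𝔫.IsMaximal ∧
      (3 : heckeAlgebra N 2 (∅ : Set ℕ)) ∈ 𝔫 ∧
      ∀ (ℓ : ℕ) (hℓ : ℓ.Prime) (hℓN : ¬ ℓ ∣ N),
        (heckeAlgebra.T hℓ hℓN (Set.notMem_empty _) : heckeAlgebra N 2 (∅ : Set ℕ))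
          - algebraMap ℤ _ (a ℓ) ∈ 𝔫 := by
  classical
  obtain ⟨f₀, -, af, haf, h3⟩ := hreal
  have hmod : ∀ n, (3 : ℤ) ∣ af n - a n := by
    intro n
    have := dvd_add (h3 n) (m3_bridge_coeff a n)
    simpa using this
  choose u hu using hmod
  have hf₀L : f₀ ∈ intLattice N 2 :=
    (mem_intLattice_iff f₀).mpr fun n => ⟨af n, (haf n).symm⟩
  have hI1 : (1 : heckeAlgebra N 2 (∅ : Set ℕ)) ∉ modThreeIdeal f₀ := by
    rintro ⟨g, hg, h1⟩
    change (1 : Module.End ℂ (CuspForm (Gamma0 N) 2)) f₀ = _ at h1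
    rw [Module.End.one_apply] at h1
    obtain ⟨m, hm⟩ := (mem_intLattice_iff g).mp hg 1
    have h2 : qCoeff ⇑f₀ 1 = (3 : ℤ) * qCoeff ⇑g 1 := by rw [h1, qCoeff_zsmul]
    rw [← haf 1, hm] at h2
    have h4 : af 1 = 3 * m := by exact_mod_cast h2
    have h5 := hu 1
    have h6 := heig.1
    omega
  have hIne : modThreeIdeal f₀ ≠ ⊤ := fun h => hI1 (by rw [h]; trivial)
  obtain ⟨𝔫, hmax, hle⟩ := Ideal.exists_le_maximal _ hIne
  refine ⟨𝔫, hmax, hle ?_, fun ℓ hℓ hℓN => hle ?_⟩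
  · refine ⟨f₀, hf₀L, ?_⟩
    change (3 : Module.End ℂ (CuspForm (Gamma0 N) 2)) f₀ = _
    rw [show (3 : Module.End ℂ (CuspForm (Gamma0 N) 2)) = (3 : ℤ) • 1 by norm_num,
      LinearMap.smul_apply, Module.End.one_apply]
  · obtain ⟨v, hv⟩ := m3_chi_mod_three ℓ
    set g₁ : CuspForm (Gamma0 N) 2 := heckeTLin 2 hℓ hℓN f₀ - (a ℓ) • f₀ with hg₁
    have hcoeff : ∀ n, ∃ m : ℤ, qCoeff ⇑g₁ n = 3 * (m : ℂ) := by
      intro n
      have heq := heig.2 ℓ hℓ n
      simp only [if_neg hℓN] at heq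
      rw [hg₁, m3_qCoeff_sub, m3_qCoeff_heckeTLin, qCoeff_zsmul]
      simp only [← haf]
      have e1 := hu (n * ℓ)
      have e2 := hu n
      rw [mul_comm ℓ n] at heq
      by_cases hd : ℓ ∣ n
      · rw [if_pos hd]
        rw [if_pos hd] at heq
        have e3 := hu (n / ℓ)
        refine ⟨u (n * ℓ) + ℓ * u (n / ℓ) + v * a (n / ℓ) - a ℓ * u n, ?_⟩
        have key : af (n * ℓ) + (ℓ : ℤ) * af (n / ℓ) - a ℓ * af n =
            3 * (u (n * ℓ) + ℓ * u (n / ℓ) + v * a (n / ℓ) - a ℓ * u n) := by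
          linear_combination e1 + (ℓ : ℤ) * e3 - a ℓ * e2 + heq + a (n / ℓ) * hv
        have := congrArg (Int.cast : ℤ → ℂ) key
        push_cast at this ⊢
        linear_combination this
      · rw [if_neg hd, add_zero]
        rw [if_neg hd, mul_zero, add_zero] at heq
        refine ⟨u (n * ℓ) - a ℓ * u n, ?_⟩
        have key : af (n * ℓ) - a ℓ * af n = 3 * (u (n * ℓ) - a ℓ * u n) := by
          linear_combination e1 - a ℓ * e2 + heq
        have := congrArg (Int.cast : ℤ → ℂ) key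
        push_cast at this ⊢
        linear_combination this
    refine ⟨(3 : ℂ)⁻¹ • g₁, ?_, ?_⟩
    · rw [mem_intLattice_iff]
      intro n
      obtain ⟨m, hm⟩ := hcoeff n
      refine ⟨m, ?_⟩
      rw [m3_qCoeff_smul, hm]
      field_simp
    · have hcoe : ((heckeAlgebra.T hℓ hℓN (Set.notMem_empty _) - algebraMap ℤ _ (a ℓ) :
          heckeAlgebra N 2 (∅ : Set ℕ)) : Module.End ℂ (CuspForm (Gamma0 N) 2)) f₀ = g₁ := by
        change (heckeTLin 2 hℓ hℓN - algebraMap ℤ (Module.End ℂ (CuspForm (Gamma0 N) 2)) (a ℓ)) f₀ = _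
        rw [LinearMap.sub_apply, Algebra.algebraMap_eq_smul_one, LinearMap.smul_apply,
          Module.End.one_apply]
      rw [hcoe]
      rw [← Int.cast_smul_eq_zsmul ℂ (3 : ℤ), smul_smul]
      norm_num

end Fermat.Agent.S49.H889
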